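import Mathlib

/-!
# S55 / INV-WR (helper413), part 1: change of group and of coefficients at cochain level

`pp₁`, `pp₂` : pull back cochains along a group homomorphism `f : G' → G` and push them forward
along an additive map `κ : A → B` which is equivariant (`κ (f g • a) = g • κ a`); the coefficient
RINGS of `A` and `B` may differ (e.g. `ZMod p` and `ℤ`).
-/

set_option autoImplicit false

namespace Fermat.Agent.S55.Inv.H413

open groupCohomology

section

variable {k k' : Type} [CommRing k] [CommRing k'] {G G' : Type} [Group G] [Group G']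
  (A : Rep.{0, 0, 0} k G) (B : Rep.{0, 0, 0} k' G') (f : G' →* G) (κ : A →+ B)

/-- pull–push of 1-cochains -/
def pp₁ (b : G → A) : G' → B := fun x => κ (b (f x))

/-- pull–push of 2-cochains -/
def pp₂ (c : G × G → A) : G' × G' → B := fun x => κ (c (f x.1, f x.2))

@[simp] lemma pp₁_apply (b : G → A) (x : G') : pp₁ A B f κ b x = κ (b (f x)) := rfl

@[simp] lemma pp₂_apply (c : G × G → A) (x y : G') :
    pp₂ A B f κ c (x, y) = κ (c (f x, f y)) := rfl

variable (hκ : ∀ (g : G') (a : A), κ (A.ρ (f g) a) = B.ρ g (κ a))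

include hκ in
lemma pp₂_mem_cocycles₂ {c : G × G → A} (hc : c ∈ cocycles₂ A) :
    pp₂ A B f κ c ∈ cocycles₂ B := by
  rw [mem_cocycles₂_iff] at hc ⊢
  intro g h j
  simp only [pp₂_apply, map_mul]
  rw [← map_add, hc (f g) (f h) (f j), map_add, hκ]

include hκ in
lemma pp_d₁₂ (b : G → A) :
    (d₁₂ B).hom (pp₁ A B f κ b) = pp₂ A B f κ ((d₁₂ A).hom b) := by
  funext ⟨g, h⟩
  simp only [d₁₂_hom_apply, pp₁_apply, pp₂_apply, map_mul, map_add, map_sub, hκ]

end

end Fermat.Agent.S55.Inv.H413
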