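import Mathlib
import Fermat.Prelude.Def_GaloisRep_CompletionBridge
import Fermat.Prelude.Def_GroupCohomology_ContinuousH2
import Fermat.Agent.S55.G.Rec.Hilbert90H844
import Fermat.Agent.S55.Bridge.Krasner
import Fermat.Agent.S55.H424.FiniteIndexComap

/-!
# S55 / INV-WR (helper413), part 2: local Kummer injectivity

Let `G_q = Gal(ℚ̄_q/ℚ_q)` and let `b : G_q → ℚ̄_qˣ` be a level-constant 1-cochain whose
coboundary is `λ ∘ c'` for a `ZMod p`-valued 2-cochain `c'`, where `λ : ZMod p → ℚ̄_qˣ` is an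
injective equivariant homomorphism onto the `p`-torsion.  Then `c'` is the coboundary of a
level-constant `ZMod p`-valued 1-cochain.  (Injectivity of `H²(G_q, μ_p) → H²(G_q, ℚ̄_qˣ)`,
i.e. Hilbert 90 + existence of `p`-th roots.)
-/

set_option autoImplicit false
set_option linter.style.haveILetI false

namespace Fermat.Agent.S55.Inv.H413

open groupCohomology

section General

variable {G : Type} [Group G] (r : G →* (AlgebraicClosure ℚ ≃ₐ[ℚ] AlgebraicClosure ℚ))

/-- A pointwise binary operation of level-constant cochains is level-constant. -/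
theorem isLevelConstant₁_map₂ {X Y Z : Type*} (φ : X → Y → Z) {f : G → X} {f' : G → Y}
    (hf : IsLevelConstant₁ r f) (hf' : IsLevelConstant₁ r f') :
    IsLevelConstant₁ r (fun g => φ (f g) (f' g)) := by
  obtain ⟨F, hF, h⟩ := hf
  obtain ⟨F', hF', h'⟩ := hf'
  haveI := hF; haveI := hF'
  refine ⟨F ⊔ F', inferInstance, fun g s hs => ?_⟩
  show φ (f (g * s)) (f' (g * s)) = φ (f g) (f' g)
  rw [h g s (IntermediateField.fixingSubgroup_antitone le_sup_left hs),
    h' g s (IntermediateField.fixingSubgroup_antitone le_sup_right hs)]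

end General

section Local

variable (q : ℕ) [Fact q.Prime]

local notation "Ω" => PadicAlgCl q
local notation "Gq" => (PadicAlgCl q ≃ₐ[ℚ_[q]] PadicAlgCl q)

/-- `g ↦ g α` is level-constant (Krasner). -/
theorem isLevelConstant₁_apply (α : Ω) :
    IsLevelConstant₁ (localGaloisToGlobal q) (fun g : Gq => g α) := by
  obtain ⟨b, hb⟩ := Bridge.exists_global_generator q α
  haveI : Algebra.IsAlgebraic ℚ (AlgebraicClosure ℚ) := AlgebraicClosure.isAlgebraic ℚ
  refine ⟨IntermediateField.adjoin ℚ {b},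
    IntermediateField.adjoin.finiteDimensional (Algebra.IsIntegral.isIntegral b), ?_⟩
  intro g s hs
  have hsb : localGaloisToGlobal q s b = b :=
    (IntermediateField.mem_fixingSubgroup_iff _ _).1 hs b
      (IntermediateField.subset_adjoin ℚ _ (Set.mem_singleton b))
  have hsα : s α = α := Bridge.fixes_adjoin_of_fixes q s b hsb _ hb
  show (g * s) α = g α
  rw [AlgEquiv.mul_apply, hsα]

/-- Level-constant Hilbert 90 for `G_{ℚ_q}` acting on `ℚ̄_qˣ`. -/
theorem local_hilbert90 (X : Gq → Ωˣ)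
    (hX : ∀ g h : Gq, (X (g * h) : Ω) = g (X h : Ω) * X g)
    (hlc : IsLevelConstant₁ (localGaloisToGlobal q) X) :
    ∃ β : Ωˣ, ∀ g : Gq, g (β : Ω) * X g = β := by
  obtain ⟨F, hF, h⟩ := hlc
  haveI := hF
  haveI : Algebra.IsAlgebraic ℚ (AlgebraicClosure ℚ) := AlgebraicClosure.isAlgebraic ℚ
  haveI : IsAlgClosure ℚ (AlgebraicClosure ℚ) := ⟨inferInstance, inferInstance⟩
  haveI : Normal ℚ (AlgebraicClosure ℚ) := IsAlgClosure.normal ℚ (AlgebraicClosure ℚ)
  haveI hfi : (F.fixingSubgroup.comap (localGaloisToGlobal q)).FiniteIndex :=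
    Fermat.Agent.S55.H424.comap_fixingSubgroup_finiteIndex (localGaloisToGlobal q) F
  haveI : Finite (Gq ⧸ F.fixingSubgroup.comap (localGaloisToGlobal q)) :=
    Subgroup.finite_quotient_of_finiteIndex
  let ι : F →* Ω := ((padicEmbedding q : AlgebraicClosure ℚ →ₐ[ℚ] Ω) :
    AlgebraicClosure ℚ →* Ω).comp ((F.val : F →ₐ[ℚ] AlgebraicClosure ℚ) : F →* AlgebraicClosure ℚ)
  have hι : ∀ θ : F, ι θ = padicEmbedding q (θ : AlgebraicClosure ℚ) := fun _ => rfl
  have hN : ∀ g : Gq, (∀ θ : F, g • ι θ = ι θ) →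
      g ∈ F.fixingSubgroup.comap (localGaloisToGlobal q) := by
    intro g hg
    rw [Subgroup.mem_comap, IntermediateField.mem_fixingSubgroup_iff]
    intro x hx
    have hinj : Function.Injective (padicEmbedding q) := (padicEmbedding q).injective
    apply hinj
    rw [padicEmbedding_localGaloisToGlobal]
    exact hg ⟨x, hx⟩
  have hN' : ∀ g ∈ F.fixingSubgroup.comap (localGaloisToGlobal q), ∀ θ : F, g • ι θ = ι θ := by
    intro g hg θ
    rw [Subgroup.mem_comap, IntermediateField.mem_fixingSubgroup_iff] at hg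
    show g (ι θ) = ι θ
    rw [hι, ← padicEmbedding_localGaloisToGlobal, hg _ θ.2]
  obtain ⟨β, hβ⟩ := G.Rec.H844.exists_unit_of_levelCocycle844 (H := Gq) ι
    (F.fixingSubgroup.comap (localGaloisToGlobal q)) hN hN' X
    (fun g h => by rw [hX]; rfl) (fun g s hs => h g s hs)
  exact ⟨β, fun g => hβ g⟩

/-- **Local Kummer injectivity.**  `lam : ZMod p → ℚ̄_qˣ` an injective homomorphism onto the
`p`-torsion, equivariant for the character `χ`; `b` a level-constant 1-cochain with values in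
`ℚ̄_qˣ` whose coboundary is `lam ∘ c'`.  Then `c'` is the coboundary of a level-constant
`ZMod p`-valued cochain. -/
theorem local_kummer (p : ℕ) [Fact p.Prime] (lam : ZMod p →+ Additive Ωˣ)
    (hinj : Function.Injective lam)
    (hsurj : ∀ z : Ωˣ, z ^ p = 1 → ∃ a, lam a = Additive.ofMul z)
    (χ : Gq → ZMod p)
    (hχ : ∀ (g : Gq) (a : ZMod p),
      ((Additive.toMul (lam (χ g * a)) : Ωˣ) : Ω) = g ((Additive.toMul (lam a) : Ωˣ) : Ω))
    (c' : Gq × Gq → ZMod p) (b : Gq → Ωˣ)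
    (hb : IsLevelConstant₁ (localGaloisToGlobal q) b)
    (hd : ∀ g h : Gq, g (b h : Ω) * (((b (g * h))⁻¹ : Ωˣ) : Ω) * (b g : Ω) =
      ((Additive.toMul (lam (c' (g, h))) : Ωˣ) : Ω)) :
    ∃ x : Gq → ZMod p, IsLevelConstant₁ (localGaloisToGlobal q) x ∧
      ∀ g h : Gq, χ g * x h - x (g * h) + x g = c' (g, h) := by
  classical
  have hp0 : 0 < p := (Fact.out : p.Prime).pos
  -- the map `L : ZMod p → Ω`
  obtain ⟨L, hL⟩ : ∃ L : ZMod p → Ω, ∀ a, L a = ((Additive.toMul (lam a) : Ωˣ) : Ω) :=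
    ⟨_, fun _ => rfl⟩
  have hLadd : ∀ a a', L (a + a') = L a * L a' := by
    intro a a'
    rw [hL, hL, hL, map_add, toMul_add, Units.val_mul]
  have hLsub : ∀ a a', L (a - a') = L a * (L a')⁻¹ := by
    intro a a'
    rw [hL, hL, hL, map_sub, toMul_sub, div_eq_mul_inv, Units.val_mul, Units.val_inv_eq_inv_val]
  have hLne : ∀ a, L a ≠ 0 := fun a => by rw [hL]; exact Units.ne_zero _
  have hLpow : ∀ a, L a ^ p = 1 := by
    intro a
    have h1 : lam (p • a) = p • lam a := map_nsmul lam p a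
    have h2 : p • a = 0 := by
      rw [nsmul_eq_mul, ZMod.natCast_self, zero_mul]
    rw [h2, map_zero] at h1
    have h3 : (Additive.toMul (lam a) : Ωˣ) ^ p = 1 := by
      rw [← toMul_nsmul, ← h1, toMul_zero]
    rw [hL, ← Units.val_pow_eq_pow_val, h3, Units.val_one]
  have hLinj : Function.Injective L := by
    intro a a' h
    apply hinj
    apply Additive.toMul.injective
    apply Units.ext
    rw [← hL, ← hL, h]
  have hLχ : ∀ g a, L (χ g * a) = g (L a) := fun g a => by rw [hL, hL]; exact hχ g a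
  have hd' : ∀ g h : Gq, g (b h : Ω) * ((b (g * h) : Ω))⁻¹ * (b g : Ω) = L (c' (g, h)) := by
    intro g h
    rw [hL, ← hd g h, Units.val_inv_eq_inv_val]
  have hbne : ∀ g, (b g : Ω) ≠ 0 := fun g => Units.ne_zero _
  -- Step 1: `X = b ^ p` is a level-constant cocycle
  have hX : ∀ g h : Gq, (((b (g * h)) ^ p : Ωˣ) : Ω) = g (((b h) ^ p : Ωˣ) : Ω) * ((b g) ^ p : Ωˣ) := by
    intro g h
    have h1 := congrArg (· ^ p) (hd' g h)
    simp only [hLpow, mul_pow, inv_pow] at h1
    rw [Units.val_pow_eq_pow_val, Units.val_pow_eq_pow_val, Units.val_pow_eq_pow_val, map_pow]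
    have h2 : ((b (g * h) : Ω)) ^ p ≠ 0 := pow_ne_zero _ (hbne _)
    field_simp at h1
    rw [h1]
  have hXlc : IsLevelConstant₁ (localGaloisToGlobal q) (fun g => (b g) ^ p) :=
    hb.comp (· ^ p)
  -- Step 2: Hilbert 90
  obtain ⟨β, hβ⟩ := local_hilbert90 q (fun g => (b g) ^ p) hX hXlc
  -- Step 3: a `p`-th root of `β`
  obtain ⟨α, hα⟩ := IsAlgClosed.exists_pow_nat_eq (β : Ω) hp0
  have hαne : α ≠ 0 := by
    rintro rfl
    rw [zero_pow hp0.ne'] at hα
    exact β.ne_zero hα.symm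
  have hgα : ∀ g : Gq, g α ≠ 0 := fun g => (map_ne_zero g).2 hαne
  -- Step 4: the modified cochain
  obtain ⟨b', hb'⟩ : ∃ b' : Gq → Ω, ∀ g, b' g = (b g : Ω) * g α * α⁻¹ := ⟨_, fun _ => rfl⟩
  have hb'lc : IsLevelConstant₁ (localGaloisToGlobal q) b' := by
    have := isLevelConstant₁_map₂ (localGaloisToGlobal q)
      (fun (u : Ωˣ) (z : Ω) => (u : Ω) * z * α⁻¹) hb (isLevelConstant₁_apply q α)
    have e : b' = fun g => (fun (u : Ωˣ) (z : Ω) => (u : Ω) * z * α⁻¹) (b g) (g α) := by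
      funext g
      exact hb' g
    rw [e]
    exact this
  have hb'pow : ∀ g, b' g ^ p = 1 := by
    intro g
    have h1 := hβ g
    simp only [Units.val_pow_eq_pow_val] at h1
    rw [hb', mul_pow, mul_pow, inv_pow, ← map_pow, hα, mul_comm ((b g : Ω) ^ p), h1]
    exact mul_inv_cancel₀ β.ne_zero
  have hb'ne : ∀ g, b' g ≠ 0 := by
    intro g h0
    have := hb'pow g
    rw [h0, zero_pow hp0.ne'] at this
    exact zero_ne_one this
  have hb'L : ∀ g, ∃ a, L a = b' g := by
    intro g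
    obtain ⟨a, ha⟩ := hsurj (Units.mk0 (b' g) (hb'ne g)) (by
      apply Units.ext
      rw [Units.val_pow_eq_pow_val, Units.val_mk0, hb'pow, Units.val_one])
    refine ⟨a, ?_⟩
    rw [hL, ha]
    rfl
  have hdb' : ∀ g h : Gq, g (b' h) * (b' (g * h))⁻¹ * b' g = L (c' (g, h)) := by
    intro g h
    rw [← hd' g h, hb', hb', hb', map_mul, map_mul, map_inv₀, ← AlgEquiv.mul_apply]
    have h1 := hgα g
    have h2 := hgα (g * h)
    have h3 := hbne (g * h)
    field_simp
  -- Step 5: descend to `ZMod p`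
  obtain ⟨ψ, hψ⟩ : ∃ ψ : Ω → ZMod p, ∀ z, (∃ a, L a = z) → L (ψ z) = z :=
    ⟨fun z => if h : ∃ a, L a = z then h.choose else 0, fun z h => by
      dsimp only
      rw [dif_pos h]; exact h.choose_spec⟩
  refine ⟨ψ ∘ b', hb'lc.comp ψ, fun g h => ?_⟩
  apply hLinj
  simp only [Function.comp_apply]
  rw [hLadd, hLsub, hLχ, hψ _ (hb'L _), hψ _ (hb'L _), hψ _ (hb'L _)]
  exact hdb' g h

end Local

end Fermat.Agent.S55.Inv.H413
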