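import Fermat.Agent.S55.G.Rec.Spec
import Fermat.Agent.S55.Bridge.InertiaConj
import Fermat.Agent.S55.H175.LocalDecompPrime

/-!
# S55 / INV-WR (helper413), part 4: inertial elements act trivially on levels unramified at `q`

`IsInertial q τ` (REC vocabulary: `τ` acts trivially on the residue field of `ℚ̄_q`) implies that
the restriction of `τ` to `ℚ̄` lies in the Prelude inertia group of `padicPlace q`; hence it
fixes every level `F` unramified outside `S` if `q ∉ S`.
-/

set_option autoImplicit false
set_option linter.style.haveILetI false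

namespace Fermat.Agent.S55.Inv.H413

open Fermat.Agent.S55.G.Rec

local notation "Qb" => AlgebraicClosure ℚ
local notation "GQ" => (AlgebraicClosure ℚ ≃ₐ[ℚ] AlgebraicClosure ℚ)

section

variable (q : ℕ) [Fact q.Prime]

local notation "Gq" => (PadicAlgCl q ≃ₐ[ℚ_[q]] PadicAlgCl q)

theorem padicPlace_liesOver413 : (padicPlace q).LiesOverPrime q :=
  Fermat.Agent.S55.H175.primeLocalPlace_liesOverPrime ⟨q, Fact.out⟩

theorem localGaloisToGlobal_mem_inertia (τ : Gq) (hτ : IsInertial q τ) :
    localGaloisToGlobal q τ ∈ (padicPlace q).inertiaSubgroupIn ℚ := by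
  rw [Bridge.mem_inertiaSubgroupIn_iff]
  refine ⟨localGaloisToGlobal_mem_decompositionSubgroup q τ, fun z hz => ?_⟩
  rw [Bridge.mem_nonunits_iff_inv_not_mem]
  by_cases h0 : localGaloisToGlobal q τ z - z = 0
  · exact Or.inl h0
  · right
    intro hmem
    rw [mem_padicPlace_iff] at hz hmem
    have hz' : ‖padicEmbedding q z‖ ≤ 1 := hz
    have hmem' : ‖padicEmbedding q (localGaloisToGlobal q τ z - z)⁻¹‖ ≤ 1 := hmem
    have hlt := hτ (padicEmbedding q z) hz'
    rw [← padicEmbedding_localGaloisToGlobal, ← map_sub] at hlt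
    have hinj : Function.Injective (padicEmbedding q) := (padicEmbedding q).injective
    have hne : padicEmbedding q (localGaloisToGlobal q τ z - z) ≠ 0 := by
      intro h
      apply h0
      apply hinj
      rw [h, map_zero]
    rw [map_inv₀, norm_inv] at hmem'
    have hpos : 0 < ‖padicEmbedding q (localGaloisToGlobal q τ z - z)‖ := norm_pos_iff.2 hne
    have := (inv_le_one₀ hpos).1 hmem'
    exact absurd hlt (not_lt.2 this)

theorem localGaloisToGlobal_mem_fixingSubgroup_of_inertial {S : Finset Nat.Primes}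
    {F : IntermediateField ℚ Qb} (hF : F.IsUnramifiedOutside S)
    (hq : (⟨q, Fact.out⟩ : Nat.Primes) ∉ S) (τ : Gq) (hτ : IsInertial q τ) :
    localGaloisToGlobal q τ ∈ F.fixingSubgroup :=
  hF.2 ⟨q, Fact.out⟩ hq (padicPlace q) (padicPlace_liesOver413 q)
    (localGaloisToGlobal_mem_inertia q τ hτ)

end

end Fermat.Agent.S55.Inv.H413
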