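import Mathlib
import Fermat.Prelude.Def_GaloisRep_CompletionBridge
import Fermat.Agent.S55.Bridge.MuP
import Fermat.Agent.S55.Bridge.Krasner

/-!
# S55 / INV-WR (helper413), part 3: the coefficient maps `ZMod p → ℚ̄ˣ → ℚ̄_qˣ`

`kap p : ZMod p →+ Additive ℚ̄ˣ`, `a ↦ ζ ^ a` (`ζ` a primitive `p`-th root of unity): injective,
onto the `p`-torsion, equivariant for the mod `p` cyclotomic character.
`lamq p q : ZMod p →+ Additive ℚ̄_qˣ` : its composition with `padicEmbedding q`.
-/

set_option autoImplicit false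
set_option linter.style.haveILetI false

namespace Fermat.Agent.S55.Inv.H413

open ExtCitation

local notation "Qb" => AlgebraicClosure ℚ
local notation "GQ" => (AlgebraicClosure ℚ ≃ₐ[ℚ] AlgebraicClosure ℚ)

section Global

variable (p : ℕ) [Fact p.Prime]

/-- The coefficient map `ZMod p → ℚ̄ˣ`, `a ↦ ζ ^ a`. -/
noncomputable def kap : ZMod p →+ Additive Qbˣ :=
  (MonoidHom.toAdditive (Subgroup.subtype (rootsOfUnity p Qb))).comp
    (Bridge.muPLinearEquiv p).toLinearMap.toAddMonoidHom

/-- the value of `kap` as an element of `ℚ̄` -/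
noncomputable def kapV (a : ZMod p) : Qb := ((Additive.toMul (kap p a) : Qbˣ) : Qb)

lemma kapV_eq (a : ZMod p) :
    kapV p a = (((Bridge.muPLinearEquiv p a).root : Qbˣ) : Qb) := rfl

lemma kap_injective : Function.Injective (kap p) := by
  intro a a' h
  apply (Bridge.muPLinearEquiv p).injective
  apply Bridge.MuP.root_injective
  apply Subtype.ext
  exact h

lemma kap_pow (a : ZMod p) : (Additive.toMul (kap p a) : Qbˣ) ^ p = 1 := by
  have h := (mem_rootsOfUnity p _).1 ((Bridge.muPLinearEquiv p a).root).2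
  exact h

lemma kap_surj (z : Qbˣ) (hz : z ^ p = 1) : ∃ a, kap p a = Additive.ofMul z := by
  have hmem : z ∈ rootsOfUnity p Qb := (mem_rootsOfUnity p z).2 hz
  refine ⟨(Bridge.muPLinearEquiv p).symm (Bridge.MuP.of p ⟨z, hmem⟩), ?_⟩
  show Additive.ofMul ((((Bridge.muPLinearEquiv p)
    ((Bridge.muPLinearEquiv p).symm (Bridge.MuP.of p ⟨z, hmem⟩))).root : Qbˣ)) = Additive.ofMul z
  rw [LinearEquiv.apply_symm_apply]
  rfl

lemma kapV_equivariant (σ : GQ) (a : ZMod p) :
    kapV p (((cycloChar p σ : (ZMod p)ˣ) : ZMod p) * a) = σ (kapV p a) := by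
  rw [kapV_eq, kapV_eq, ← Bridge.muPRep_apply, Bridge.muPRep_apply_smul, ← smul_eq_mul,
    map_smul]

end Global

section Local

variable (p : ℕ) [Fact p.Prime] (q : ℕ) [Fact q.Prime]

local notation "Ω" => PadicAlgCl q
local notation "Gq" => (PadicAlgCl q ≃ₐ[ℚ_[q]] PadicAlgCl q)

/-- The coefficient map `ZMod p → ℚ̄_qˣ`. -/
noncomputable def lamq : ZMod p →+ Additive Ωˣ :=
  (MonoidHom.toAdditive (Units.map ((padicEmbedding q : Qb →ₐ[ℚ] Ω) : Qb →* Ω))).comp (kap p)

lemma lamq_val (a : ZMod p) :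
    ((Additive.toMul (lamq p q a) : Ωˣ) : Ω) = padicEmbedding q (kapV p a) := rfl

lemma lamq_injective : Function.Injective (lamq p q) := by
  intro a a' h
  apply kap_injective p
  apply Additive.toMul.injective
  apply Units.ext
  have hinj : Function.Injective (padicEmbedding q) := (padicEmbedding q).injective
  apply hinj
  have := congrArg (fun m : Additive Ωˣ => ((Additive.toMul m : Ωˣ) : Ω)) h
  exact this

lemma lamq_surj (z : Ωˣ) (hz : z ^ p = 1) : ∃ a, lamq p q a = Additive.ofMul z := by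
  have hp0 : p ≠ 0 := (Fact.out : p.Prime).ne_zero
  have hz' : (z : Ω) ^ p = 1 := by
    rw [← Units.val_pow_eq_pow_val, hz, Units.val_one]
  obtain ⟨w, hw⟩ := Bridge.mem_range_padicEmbedding_of_root q
    (Polynomial.X ^ p - 1 : Polynomial ℚ) (Polynomial.X_pow_sub_C_ne_zero
      (Nat.pos_of_ne_zero hp0) 1) (z : Ω) (by simp [hz'])
  have hinj : Function.Injective (padicEmbedding q) := (padicEmbedding q).injective
  have hwp : w ^ p = 1 := by
    apply hinj
    rw [map_pow, hw, hz', map_one]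
  have hw0 : w ≠ 0 := by
    rintro rfl
    rw [zero_pow hp0] at hwp
    exact zero_ne_one hwp
  obtain ⟨a, ha⟩ := kap_surj p (Units.mk0 w hw0) (by
    apply Units.ext
    rw [Units.val_pow_eq_pow_val, Units.val_mk0, hwp, Units.val_one])
  refine ⟨a, ?_⟩
  apply Additive.toMul.injective
  apply Units.ext
  rw [lamq_val]
  have : kapV p a = w := by
    unfold kapV
    rw [ha]
    rfl
  rw [this, hw]
  rfl

lemma lamq_equivariant (g : Gq) (a : ZMod p) :
    ((Additive.toMul (lamq p q (((cycloChar p (localGaloisToGlobal q g) : (ZMod p)ˣ) : ZMod p)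
      * a)) : Ωˣ) : Ω) = g ((Additive.toMul (lamq p q a) : Ωˣ) : Ω) := by
  rw [lamq_val, lamq_val, kapV_equivariant, padicEmbedding_localGaloisToGlobal]

lemma norm_lamq (a : ZMod p) (σ : GQ) : ‖padicEmbedding q (σ (kapV p a))‖ = 1 := by
  have hp0 : p ≠ 0 := (Fact.out : p.Prime).ne_zero
  have h1 : (padicEmbedding q (σ (kapV p a))) ^ p = 1 := by
    rw [← map_pow, ← map_pow]
    have : kapV p a ^ p = 1 := by
      unfold kapV
      rw [← Units.val_pow_eq_pow_val, kap_pow, Units.val_one]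
    rw [this, map_one, map_one]
  have h2 : ‖padicEmbedding q (σ (kapV p a))‖ ^ p = 1 := by
    rw [← norm_pow, h1, norm_one]
  exact (pow_eq_one_iff_of_nonneg (norm_nonneg _) hp0).1 h2

end Local

end Fermat.Agent.S55.Inv.H413
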