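import Fermat.Agent.S55.PT.Setup
import Fermat.Agent.S55.G.Rec.Final
import Fermat.Agent.S55.G.Rec.SupportFiniteH181
import Fermat.Agent.S55.Inv.WrH413.Coeff
import Fermat.Agent.S55.Inv.WrH413.Kummer
import Fermat.Agent.S55.Inv.WrH413.Zeta
import Fermat.Agent.S55.Inv.WrH413.Unram

/-!
# S55 / INV-WR (helper413), part 5: the Brauer class of a `μ_p`-valued 2-cocycle

For a level-constant 2-cocycle `c` of `G_ℚ` with values in `μ_p = ofChar (cycloChar p)` we form
the class `gClass p S c ∈ Br(ℚ) = gBr ⊤` of `(g, h) ↦ ζ ^ c(g, h)` and compute its localisations.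
-/

set_option autoImplicit false
set_option linter.style.haveILetI false
set_option linter.unusedSectionVars false

noncomputable section

namespace Fermat.Agent.S55.Inv.H413

open Fermat.Agent.S55.PT Fermat.Agent.S55.G.Rec groupCohomology ExtCitation

local notation "Qb" => AlgebraicClosure ℚ
local notation "T" => (⊤ : Subgroup GQ)

variable (p : ℕ) [Fact p.Prime] (S : Finset Nat.Primes)

/-- `kap` as a map of the underlying modules. -/
def kapT : ↥(mu p) →+ ↥(gModOn T) := kap p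

lemma kapT_equivariant (g : ↥T) (a : ↥(mu p)) :
    kapT p ((mu p).ρ ((Subgroup.subtype T) g) a) = (gModOn T).ρ g (kapT p a) := by
  apply Additive.toMul.injective
  apply Units.ext
  exact kapV_equivariant p (g : GQ) a

/-- the global `ℚ̄ˣ`-valued 2-cochain `(g, h) ↦ ζ ^ c(g, h)` -/
def gCoch (c : GQ × GQ → ↥(mu p)) : ↥T × ↥T → ↥(gModOn T) :=
  pp₂ (mu p) (gModOn T) (Subgroup.subtype T) (kapT p) c

lemma gCoch_apply (c : GQ × GQ → ↥(mu p)) (g h : ↥T) :
    gCoch p c (g, h) = kapT p (c ((g : GQ), (h : GQ))) := rfl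

lemma gCoch_mem (c : ↥((globalLevels S).Z2 (mu p))) :
    gCoch p (c : GQ × GQ → ↥(mu p)) ∈ levelCocycles₂ (Subgroup.subtype T) (gModOn T) := by
  refine ⟨pp₂_mem_cocycles₂ (mu p) (gModOn T) (Subgroup.subtype T) (kapT p) (kapT_equivariant p) c.2.1, ?_⟩
  obtain ⟨U, ⟨F, hF, rfl⟩, h⟩ := c.2.2
  refine ⟨F, hF.1, fun g g' s s' hs hs' => ?_⟩
  rw [gCoch_apply, gCoch_apply]
  exact congrArg (kapT p) (h (g : GQ) (g' : GQ) (s : GQ) (s' : GQ) hs hs')

/-- the Brauer class of `c` -/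
def gClass (c : ↥((globalLevels S).Z2 (mu p))) : gBr T :=
  continuousH2π (Subgroup.subtype T) (gModOn T) ⟨gCoch p (c : GQ × GQ → ↥(mu p)), gCoch_mem p S c⟩

lemma gClass_torsion (c : ↥((globalLevels S).Z2 (mu p))) : p ^ 1 • gClass p S c = 0 := by
  rw [pow_one]
  unfold gClass
  rw [← map_nsmul]
  have : p • (⟨gCoch p (c : GQ × GQ → ↥(mu p)), gCoch_mem p S c⟩ :
      ↥(levelCocycles₂ (Subgroup.subtype T) (gModOn T))) = 0 := by
    apply Subtype.ext
    funext ⟨g, h⟩
    show p • kapT p ((c : GQ × GQ → ↥(mu p)) ((g : GQ), (h : GQ))) = 0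
    rw [← map_nsmul]
    have h0 : p • ((c : GQ × GQ → ↥(mu p)) ((g : GQ), (h : GQ))) = 0 := by
      show p • ((c : GQ × GQ → ↥(mu p)) ((g : GQ), (h : GQ)) : ZMod p) = 0
      rw [nsmul_eq_mul, ZMod.natCast_self, zero_mul]
    rw [h0, map_zero]
  rw [this, map_zero]

lemma isOpenQ_top : IsOpenQ T := ⟨⊥, inferInstance, le_top⟩

lemma isDoubleCosetReps_top (D : Subgroup GQ) : IsDoubleCosetReps T D {1} := by
  intro g
  refine ⟨1, ⟨Finset.mem_singleton_self 1, g, Subgroup.mem_top g, 1, one_mem D, by simp⟩,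
    fun r hr => Finset.mem_singleton.1 hr.1⟩

section Local

variable (q : ℕ) [Fact q.Prime]

local notation "Ω" => PadicAlgCl q
local notation "Gq" => (PadicAlgCl q ≃ₐ[ℚ_[q]] PadicAlgCl q)

/-- the local cyclotomic character, as a function -/
def chiq (g : Gq) : ZMod p := ((cycloChar p (localGaloisToGlobal q g) : (ZMod p)ˣ) : ZMod p)

lemma mem_locSub_top (τ : Gq) : τ ∈ locSub q 1 T := Subgroup.mem_top _

/-- `lamq` as a map into the local module -/
def lamT : ZMod p →+ ↥(lModOn q (locSub q 1 T)) := lamq p q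

lemma lamT_equivariant (g : ↥(locSub q 1 T)) (a : ZMod p) :
    (lModOn q (locSub q 1 T)).ρ g (lamT p q a) = lamT p q (chiq p q (g : Gq) * a) := by
  apply Additive.toMul.injective
  apply Units.ext
  exact (lamq_equivariant p q (g : Gq) a).symm

lemma locCochain_gCoch (c : GQ × GQ → ↥(mu p)) (τ₁ τ₂ : ↥(locSub q 1 T)) :
    locCochain₂ q 1 T (gCoch p c) (τ₁, τ₂) =
      lamT p q (c (localGaloisToGlobal q (τ₁ : Gq), localGaloisToGlobal q (τ₂ : Gq))) := by
  apply Additive.toMul.injective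
  apply Units.ext
  show padicEmbedding q ((1 : GQ)⁻¹ (kapV p (c ((1 : GQ) * localGaloisToGlobal q (τ₁ : Gq) * 1⁻¹,
    (1 : GQ) * localGaloisToGlobal q (τ₂ : Gq) * 1⁻¹)))) = padicEmbedding q (kapV p
      (c (localGaloisToGlobal q (τ₁ : Gq), localGaloisToGlobal q (τ₂ : Gq))))
  rw [inv_one, one_mul, mul_one, one_mul, mul_one]
  rfl

/-- If the restriction of `c` to `G_q` is a level-constant coboundary, the Brauer class of `c`
is trivial at `q`. -/
theorem locBr_eq_zero_of_cob (c : ↥((globalLevels S).Z2 (mu p))) (x : Gq → ZMod p)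
    (hx : IsLevelConstant₁ (localGaloisToGlobal q) x)
    (hdx : ∀ g h : Gq, chiq p q g * x h - x (g * h) + x g =
      (c : GQ × GQ → ↥(mu p)) (localGaloisToGlobal q g, localGaloisToGlobal q h)) :
    locBr q 1 T (gClass p S c) = 0 := by
  unfold gClass
  rw [locBr_mk, continuousH2π_eq_zero_iff, mem_levelCoboundaries₂_iff]
  refine ⟨fun τ => lamT p q (x (τ : Gq)), ?_, ?_⟩
  · obtain ⟨F, hF, h⟩ := hx
    refine ⟨F, hF, fun g s hs => ?_⟩
    show lamT p q (x ((g : Gq) * (s : Gq))) = lamT p q (x (g : Gq))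
    rw [h (g : Gq) (s : Gq) hs]
  · funext ⟨g, h⟩
    rw [d₁₂_hom_apply, coe_locCocycles₂]
    show (lModOn q (locSub q 1 T)).ρ g (lamT p q (x (h : Gq))) - lamT p q (x ((g : Gq) * (h : Gq)))
      + lamT p q (x (g : Gq)) = locCochain₂ q 1 T (gCoch p (c : GQ × GQ → ↥(mu p))) (g, h)
    rw [locCochain_gCoch, ← hdx, map_add, map_sub, lamT_equivariant]

/-- **Local Kummer injectivity**, applied to the Brauer class of `c`. -/
theorem exists_cob_of_locBr_eq_zero (c : ↥((globalLevels S).Z2 (mu p)))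
    (h0 : locBr q 1 T (gClass p S c) = 0) :
    ∃ x : Gq → ZMod p, IsLevelConstant₁ (localGaloisToGlobal q) x ∧
      ∀ g h : Gq, chiq p q g * x h - x (g * h) + x g =
        (c : GQ × GQ → ↥(mu p)) (localGaloisToGlobal q g, localGaloisToGlobal q h) := by
  unfold gClass at h0
  rw [locBr_mk, continuousH2π_eq_zero_iff, mem_levelCoboundaries₂_iff] at h0
  obtain ⟨bL, hbL, hd⟩ := h0
  refine local_kummer q p (lamq p q) (lamq_injective p q) (lamq_surj p q) (chiq p q)
    (lamq_equivariant p q)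
    (fun y => (c : GQ × GQ → ↥(mu p)) (localGaloisToGlobal q y.1, localGaloisToGlobal q y.2))
    (fun τ => Additive.toMul (bL ⟨τ, mem_locSub_top q τ⟩)) ?_ ?_
  · obtain ⟨F, hF, h⟩ := hbL
    refine ⟨F, hF, fun g s hs => ?_⟩
    exact congrArg Additive.toMul (h ⟨g, mem_locSub_top q g⟩ ⟨s, mem_locSub_top q s⟩ hs)
  · intro g h
    have h1 := congrFun hd (⟨g, mem_locSub_top q g⟩, ⟨h, mem_locSub_top q h⟩)
    rw [d₁₂_hom_apply, coe_locCocycles₂, locCochain_gCoch] at h1
    have h2 := congrArg (fun m : ↥(lModOn q (locSub q 1 T)) =>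
      ((Additive.toMul m : Ωˣ) : Ω)) h1
    exact h2

end Local

end Fermat.Agent.S55.Inv.H413

end
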